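import Fermat.Prelude.Def_FLTPrelim_ModularRep
import Fermat.Prelude.Def_FLTPrelim_Ramification
import Fermat.Agent.RT.FreyLowering

/-!
# Inputs of the modularity lifting theorem at `3` and `5`

* `SqLowering`: a square factor away from `p` of the residual level can be lowered to a simple one.
* `GoodPrimeLowering`: the statement of S40.
* `OrdinaryTp`: at a multiplicative `p` prime to the level, `a_p ≡ ±1`.
* `LiftFromBaseLevel`: lifting from a squarefree residual level all whose primes are needed.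
-/

set_option autoImplicit false

open WeierstrassCurve

namespace Fermat.Agent.Lifting

local notation "ℚ̄" => AlgebraicClosure ℚ

/-- `E[p]` is unramified at `q`. -/
def ResiduallyUnramifiedAt (W : WeierstrassCurve ℤ) (p q : ℕ) : Prop :=
  WeierstrassCurve.Affine.Point.GaloisRepUnramifiedAt (K := ℚ̄) ℚ
    (W.map (Int.castRingHom ℚ)) p q

/-- From level `q² · M` to level `q · M`, for a semistable curve. -/
def SqLowering : Prop :=
  ∀ (p : ℕ), p.Prime → p ≠ 2 → ∀ (W : WeierstrassCurve ℤ), W.Δ ≠ 0 → W.IsSemistableModel →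
    W.ModRepIsIrreducible p → ∀ (M q : ℕ), 0 < M → ¬ p ^ 2 ∣ M →
    (∀ r : ℕ, r.Prime → r ≠ p → ¬ r ^ 3 ∣ M) → q.Prime → q ≠ p → q ^ 2 ∣ M →
    W.IsResiduallyModularOfLevel p M → W.IsResiduallyModularOfLevel p (M / q)

/-- The statement of S40, as a proposition. -/
def GoodPrimeLowering : Prop :=
  ∀ (W : WeierstrassCurve ℤ), W.Δ ≠ 0 → ∀ {p : ℕ}, p.Prime → p ≠ 2 → W.IsGoodPrimeFor p →
    W.ModRepIsIrreducible p → ∀ {M : ℕ}, 0 < M → p ∣ M → ¬ p ^ 2 ∣ M →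
    W.IsResiduallyModularOfLevel p M → W.IsResiduallyModularOfLevel p (M / p)

/-- An eigenform of level prime to `p`, congruent to a curve multiplicative at `p`, has
`a_p ≡ ±1`. -/
def OrdinaryTp : Prop :=
  ∀ (p : ℕ), p.Prime → p ≠ 2 → ∀ (W : WeierstrassCurve ℤ), W.Δ ≠ 0 → W.IsSemistableModel →
    (p : ℤ) ∣ W.Δ → W.ModRepIsIrreducible p →
    ∀ (M : ℕ) (f : CuspForm (CongruenceSubgroup.Gamma0 M) 2) (𝔪 : Ideal (integralClosure ℤ ℂ)),
    0 < M → ¬ p ∣ M → f.IsNormalizedEigenform → 𝔪.IsMaximal →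
    (p : integralClosure ℤ ℂ) ∈ 𝔪 →
    (∀ ℓ : ℕ, ℓ.Prime → W.IsGoodPrimeFor ℓ → ¬ ℓ ∣ M → ℓ ≠ p → ∃ a : integralClosure ℤ ℂ,
      (a : ℂ) = ModularFormClass.qCoeff f ℓ ∧
        a - ((W.apOfModel ℓ : ℤ) : integralClosure ℤ ℂ) ∈ 𝔪) →
    ∃ a : integralClosure ℤ ℂ, (a : ℂ) = ModularFormClass.qCoeff f p ∧ a ^ 2 - 1 ∈ 𝔪

/-- A squarefree residual level all whose primes are needed. -/
structure IsBaseLevel (W : WeierstrassCurve ℤ) (p L : ℕ) : Prop where
  pos : 0 < L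
  squarefree : Squarefree L
  residual : W.IsResiduallyModularOfLevel p L
  ramified : ∀ q : ℕ, q.Prime → q ≠ p → q ∣ L → ¬ ResiduallyUnramifiedAt W p q
  mult_of_dvd : p ∣ L → (p : ℤ) ∣ W.Δ

/-- Modularity at a cube-free level, from a base level. -/
def LiftFromBaseLevel : Prop :=
  ∀ (p : ℕ), p = 3 ∨ p = 5 → ∀ (W : WeierstrassCurve ℤ), W.Δ ≠ 0 → W.IsSemistableModel →
    W.ModRepIsIrreducible p → ∀ L : ℕ, IsBaseLevel W p L →
    ∃ N : ℕ, 0 < N ∧ ¬ p ^ 2 ∣ N ∧ (∀ q : ℕ, q.Prime → ¬ q ^ 3 ∣ N) ∧ W.IsModularModelOfLevel N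

end Fermat.Agent.Lifting
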