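import Fermat.Agent.LevelRaise.CuspClass
import Mathlib.NumberTheory.Modular

/-!
# Non-parabolic eigen classes

If `φ : Γ₀(N) → ℚ` is a homomorphism with `T_ℓ φ = a φ` for a prime `ℓ ≡ 1 (mod N)` and
`|a| < ℓ + 1`, then `φ` kills the parabolic elements.
-/

set_option autoImplicit false

open CongruenceSubgroup ModularCurve.Period
open Fermat.Agent.Periods
open Matrix
open scoped MatrixGroups

namespace Fermat.Agent.Lifting

variable {N : ℕ}

/-- A unipotent element of `SL(2, ℤ)` fixing `(1, 0)` is a power of `T`. -/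
theorem eq_T_zpow {Y : SL(2, ℤ)} (h00 : Y.1 0 0 = 1) (h10 : Y.1 1 0 = 0) :
    Y = ModularGroup.T ^ (Y.1 0 1) := by
  have h := Y.2
  rw [Matrix.det_fin_two, h00, h10, one_mul, mul_zero, sub_zero] at h
  refine Subtype.ext ?_
  rw [ModularGroup.coe_T_zpow]
  ext i j
  fin_cases i <;> fin_cases j <;> simp [h00, h10, h]

/-- A matrix of trace two and determinant one fixes a primitive vector. -/
theorem exists_fixed_primitive {g : SL(2, ℤ)} (ht : g.1.trace = 2) :
    ∃ v : Fin 2 → ℤ, IsCoprime (v 0) (v 1) ∧ g.1 *ᵥ v = v := by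
  have hd := g.2
  rw [Matrix.det_fin_two] at hd
  rw [Matrix.trace_fin_two] at ht
  by_cases hc : g.1 1 0 = 0
  · refine ⟨![1, 0], by simp [isCoprime_one_left], ?_⟩
    rw [hc, mul_zero, sub_zero] at hd
    have h1 : g.1 0 0 = 1 := by nlinarith [sq_nonneg (g.1 0 0 - 1)]
    ext i
    fin_cases i <;> simp [Matrix.mulVec, dotProduct, Fin.sum_univ_two, h1, hc]
  · set x := g.1 0 0 - 1 with hx
    obtain ⟨u, v, hu⟩ : ∃ u v : ℤ, u * x + v * g.1 1 0 = (Int.gcd x (g.1 1 0) : ℤ) :=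
      ⟨Int.gcdA x (g.1 1 0), Int.gcdB x (g.1 1 0), by rw [Int.gcd_eq_gcd_ab]; ring⟩
    set d : ℤ := (Int.gcd x (g.1 1 0) : ℤ) with hdd
    have hd0 : d ≠ 0 := by
      simp [hdd, Int.gcd_eq_zero_iff, hc]
    obtain ⟨a, ha⟩ := Int.gcd_dvd_left x (g.1 1 0)
    obtain ⟨c, hc'⟩ := Int.gcd_dvd_right x (g.1 1 0)
    rw [← hdd] at ha hc'
    refine ⟨![a, c], ⟨u, v, mul_left_cancel₀ hd0 ?_⟩, funext fun i => mul_left_cancel₀ hd0 ?_⟩
    · simp only [Matrix.cons_val_zero, Matrix.cons_val_one]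
      linear_combination hu - u * ha - v * hc'
    · fin_cases i
      · show d * _ = d * a
        simp only [Matrix.mulVec, dotProduct, Fin.sum_univ_two, Fin.zero_eta, Fin.isValue,
          Matrix.cons_val_zero, Matrix.cons_val_one]
        linear_combination (1 - g.1 0 0) * ha - g.1 0 1 * hc' + (g.1 0 0 - 1) * hx
          + g.1 0 0 * ht - hd
      · show d * _ = d * c
        simp only [Matrix.mulVec, dotProduct, Fin.sum_univ_two, Fin.mk_one, Fin.isValue,
          Matrix.cons_val_zero, Matrix.cons_val_one]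
        linear_combination -g.1 1 0 * ha - (g.1 1 1 - 1) * hc' + g.1 1 0 * hx + g.1 1 0 * ht

theorem conj_mul_step {G : Type*} [Group G] (k g : G) (X : G) {Z : G} (h : X = k⁻¹ * Z * k) :
    X * (k⁻¹ * g * k) = k⁻¹ * (Z * g) * k := by
  rw [h]; group

/-- The multiplicity with which a representative of `T_ℓ` moves a primitive vector to the class
of that vector. -/
theorem exists_multiplicity {ℓ : ℕ} (hℓ : ℓ.Prime) (hℓ1 : (ℓ : ZMod N) = 1) (i : HeckeIdx N ℓ)
    {v : Fin 2 → ℤ} (hv : IsCoprime (v 0) (v 1)) :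
    ∃ (g : Gamma0 N) (e : ℤ), heckeMat N ℓ i *ᵥ v = e • (gammaMat g *ᵥ v) := by
  have hv0 : v ≠ 0 := fun h => by simp [h, isCoprime_zero_left] at hv
  obtain ⟨g, c, c', hc, -, hg⟩ := LevelRaise.exists_gamma0_heckeMat_mulVec hℓ hℓ1 i v hv0
  obtain ⟨u, t, hut⟩ := hv
  set w := gammaMat g *ᵥ v with hw
  set y := heckeMat N ℓ i *ᵥ v with hy
  -- coordinates of `v` in terms of those of `w`
  set A := (gammaMat g).adjugate with hA
  have hback : A *ᵥ w = v := by
    rw [hw, hA, Matrix.mulVec_mulVec, Matrix.adjugate_mul, gammaMat_det, one_smul, Matrix.one_mulVec]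
  set e := u * (A *ᵥ y) 0 + t * (A *ᵥ y) 1 with he
  refine ⟨g, e, ?_⟩
  have h1 : c * e = c' := by
    have h0 := congrArg (fun z => (A *ᵥ z) 0) hg
    have h1 := congrArg (fun z => (A *ᵥ z) 1) hg
    simp only [Matrix.mulVec_smul, Pi.smul_apply, smul_eq_mul] at h0 h1
    change c * (A *ᵥ y) 0 = c' * (A *ᵥ w) 0 at h0
    change c * (A *ᵥ y) 1 = c' * (A *ᵥ w) 1 at h1
    rw [hback] at h0 h1
    rw [he]
    linear_combination u * h0 + t * h1 + c' * hut
  refine funext fun k => mul_left_cancel₀ hc ?_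
  have := congrFun hg k
  simp only [Pi.smul_apply, smul_eq_mul] at this ⊢
  rw [← mul_assoc, h1]
  exact this

/-- Two multiples of images of a primitive vector which agree have multipliers of the same
absolute value. -/
theorem natAbs_eq_of_smul_eq {g g' : Gamma0 N} {v : Fin 2 → ℤ} (hv : IsCoprime (v 0) (v 1))
    {e e' : ℤ} (h : e • (gammaMat g *ᵥ v) = e' • (gammaMat g' *ᵥ v)) :
    e.natAbs = e'.natAbs := by
  have key : ∀ {g g' : Gamma0 N} {e e' : ℤ},
      e • (gammaMat g *ᵥ v) = e' • (gammaMat g' *ᵥ v) → e' ∣ e := by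
    intro g g' e e' h
    obtain ⟨u, t, hut⟩ := hv
    set A := (gammaMat g).adjugate with hA
    have hback : A *ᵥ (gammaMat g *ᵥ v) = v := by
      rw [hA, Matrix.mulVec_mulVec, Matrix.adjugate_mul, gammaMat_det, one_smul, Matrix.one_mulVec]
    have h' := congrArg (fun z => A *ᵥ z) h
    simp only [Matrix.mulVec_smul, hback] at h'
    refine ⟨u * (A *ᵥ (gammaMat g' *ᵥ v)) 0 + t * (A *ᵥ (gammaMat g' *ᵥ v)) 1, ?_⟩
    have h0 := congrFun h' 0
    have h1 := congrFun h' 1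
    simp only [Pi.smul_apply, smul_eq_mul] at h0 h1
    linear_combination u * h0 + t * h1 - e * hut
  exact Int.natAbs_eq_of_dvd_dvd (key h.symm) (key h)

/-- A matrix of determinant `ℓ` carrying a power of a unipotent element to another element
carries the `ℓ`-th power of the latter to a conjugate of a power of the former. -/
theorem pow_eq_conj_of_step {ℓ n : ℕ} (hℓ : ℓ.Prime) {M : IntMat} (hM : M.det = ℓ)
    {γ x g k : SL(2, ℤ)} {v : Fin 2 → ℤ} (hk : k.1 *ᵥ ![1, 0] = v) (hfix : γ.1 *ᵥ v = v)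
    {e : ℤ} (he : M *ᵥ v = e • (g.1 *ᵥ v)) (hx : M * (γ ^ n).1 = x.1 * M) :
    x ^ ℓ = g * γ ^ (n * e.natAbs ^ 2) * g⁻¹ := by
  set U : SL(2, ℤ) := k⁻¹ * γ * k with hU
  set k' : SL(2, ℤ) := g * k with hk'
  set Y : SL(2, ℤ) := k'⁻¹ * x * k' with hY
  have hkk : (k⁻¹).1 * k.1 = 1 := by
    rw [← Matrix.SpecialLinearGroup.coe_mul, inv_mul_cancel]; rfl
  have hkk2 : k.1 * (k⁻¹).1 = 1 := by
    rw [← Matrix.SpecialLinearGroup.coe_mul, mul_inv_cancel]; rfl
  have hkk' : (k'⁻¹).1 * k'.1 = 1 := by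
    rw [← Matrix.SpecialLinearGroup.coe_mul, inv_mul_cancel]; rfl
  have hkk'2 : k'.1 * (k'⁻¹).1 = 1 := by
    rw [← Matrix.SpecialLinearGroup.coe_mul, mul_inv_cancel]; rfl
  have hk0 : (k⁻¹).1 *ᵥ v = ![1, 0] := by rw [← hk, Matrix.mulVec_mulVec, hkk, Matrix.one_mulVec]
  have hk'v : (k'⁻¹).1 *ᵥ (g.1 *ᵥ v) = ![1, 0] := by
    rw [← hk, Matrix.mulVec_mulVec, Matrix.mulVec_mulVec, Matrix.mul_assoc,
      ← Matrix.SpecialLinearGroup.coe_mul g, ← hk', hkk', Matrix.one_mulVec]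
  have hU0 : U.1 *ᵥ ![1, 0] = ![1, 0] := by
    rw [hU, Matrix.SpecialLinearGroup.coe_mul, Matrix.SpecialLinearGroup.coe_mul,
      ← Matrix.mulVec_mulVec, ← Matrix.mulVec_mulVec, hk, hfix, hk0]
  have hUT : U = ModularGroup.T ^ (U.1 0 1) := eq_T_zpow
    (by simpa [Matrix.mulVec, dotProduct, Fin.sum_univ_two] using congrFun hU0 0)
    (by simpa [Matrix.mulVec, dotProduct, Fin.sum_univ_two] using congrFun hU0 1)
  set P : IntMat := (k'⁻¹).1 * M * k.1 with hP
  have hP0 : P *ᵥ ![1, 0] = e • ![1, 0] := by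
    rw [hP, ← Matrix.mulVec_mulVec, ← Matrix.mulVec_mulVec, hk, he, Matrix.mulVec_smul, hk'v]
  have hPdet : P.det = ℓ := by
    rw [hP, Matrix.det_mul, Matrix.det_mul, hM, (k'⁻¹).2, k.2, one_mul, mul_one]
  have hUn : U ^ n = k⁻¹ * γ ^ n * k := by
    clear hx
    induction n with
    | zero => simp
    | succ n ih => rw [pow_succ, pow_succ, ih, hU]; exact conj_mul_step _ _ _ rfl
  have hPY : P * (U ^ n).1 = Y.1 * P := by
    rw [hUn, hY, hP]
    simp only [Matrix.SpecialLinearGroup.coe_mul]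
    calc (k'⁻¹).1 * M * k.1 * ((k⁻¹).1 * (γ ^ n).1 * k.1)
        = (k'⁻¹).1 * (M * (k.1 * (k⁻¹).1) * (γ ^ n).1) * k.1 := by simp only [Matrix.mul_assoc]
      _ = (k'⁻¹).1 * (x.1 * (k'.1 * (k'⁻¹).1) * M) * k.1 := by
          rw [hkk2, Matrix.mul_one, hx, hkk'2, Matrix.mul_one]
      _ = _ := by simp only [Matrix.mul_assoc]
  clear_value U k' Y P
  rw [hUT, ← zpow_natCast, ← zpow_mul, ModularGroup.coe_T_zpow] at hPY
  have hP10 : P 1 0 = 0 := by
    simpa [Matrix.mulVec, dotProduct, Fin.sum_univ_two] using congrFun hP0 1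
  have hP00 : P 0 0 = e := by
    simpa [Matrix.mulVec, dotProduct, Fin.sum_univ_two] using congrFun hP0 0
  have hed : e * P 1 1 = ℓ := by
    rw [← hPdet, Matrix.det_fin_two, hP10, hP00]; ring
  have he0 : e ≠ 0 := fun h => hℓ.ne_zero (by
    rw [h, zero_mul] at hed; exact_mod_cast hed.symm)
  have e00 := congrFun (congrFun hPY 0) 0
  have e01 := congrFun (congrFun hPY 0) 1
  have e10 := congrFun (congrFun hPY 1) 0
  simp only [Matrix.mul_apply, Fin.sum_univ_two, Matrix.of_apply, Matrix.cons_val',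
    Matrix.cons_val_zero, Matrix.cons_val_one, Matrix.cons_val_fin_one, hP00, hP10] at e00 e01 e10
  have hY00 : Y.1 0 0 = 1 := mul_right_cancel₀ he0 (by linear_combination -e00)
  have hY10 : Y.1 1 0 = 0 := mul_right_cancel₀ he0 (by linear_combination -e10)
  have hpow : Y ^ ℓ = U ^ (n * e.natAbs ^ 2) := by
    rw [eq_T_zpow hY00 hY10, hUT, ← zpow_natCast, ← zpow_natCast, ← zpow_mul, ← zpow_mul]
    congr 1
    push_cast
    rw [sq_abs]
    rw [hY00] at e01
    linear_combination (-e) * e01 - Y.1 0 1 * hed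
  have hYpow : ∀ m : ℕ, Y ^ m = k'⁻¹ * x ^ m * k' := by
    intro m
    induction m with
    | zero => simp
    | succ m ih => rw [pow_succ, pow_succ, ih, hY]; exact conj_mul_step _ _ _ rfl
  have hUpow : ∀ m : ℕ, U ^ m = k⁻¹ * γ ^ m * k := by
    intro m
    induction m with
    | zero => simp
    | succ m ih => rw [pow_succ, pow_succ, ih, hU]; exact conj_mul_step _ _ _ rfl
  rw [hYpow, hUpow] at hpow
  calc x ^ ℓ = k' * (k'⁻¹ * x ^ ℓ * k') * k'⁻¹ := by
        simp only [mul_assoc, mul_inv_cancel, mul_one, mul_inv_cancel_left]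
    _ = _ := by
        rw [hpow, hk']
        simp only [_root_.mul_inv_rev, mul_assoc, mul_inv_cancel_left]

/-- `T_ℓ` multiplies the value at a unipotent element by `(∑ eᵢ²) / ℓ`. -/
theorem mul_heckeHom_parabolic {ℓ : ℕ} (hℓ : ℓ.Prime) (hℓ1 : (ℓ : ZMod N) = 1)
    {A : Type*} [AddCommGroup A] (φ : Additive (Gamma0 N) →+ A) {γ : Gamma0 N}
    (ht : (gammaMat γ).trace = 2) :
    ∃ e : HeckeIdx N ℓ → ℕ, (∀ i, e i ∣ ℓ) ∧
      ℓ • heckeHom ℤ A hℓ φ (Additive.ofMul γ) = (∑ i, e i ^ 2) • φ (Additive.ofMul γ) := by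
  obtain ⟨v, hv, hfix⟩ := exists_fixed_primitive (g := (γ : SL(2, ℤ))) ht
  choose g e he using fun i => exists_multiplicity hℓ hℓ1 i hv
  obtain ⟨k, hk0, hk1⟩ := hv.exists_SL2_col 0
  have hk : k.1 *ᵥ ![1, 0] = v := by
    ext j; fin_cases j <;> simp [Matrix.mulVec, dotProduct, Fin.sum_univ_two, hk0, hk1]
  refine ⟨fun i => (e i).natAbs, fun i => ?_, ?_⟩
  · -- `e i` divides the determinant
    obtain ⟨u, t, hut⟩ := hv
    set z := (heckeMat N ℓ i).adjugate *ᵥ (gammaMat (g i) *ᵥ v) with hz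
    have h' : (ℓ : ℤ) • v = e i • z := by
      have h := congrArg (fun z => (heckeMat N ℓ i).adjugate *ᵥ z) (he i)
      rwa [Matrix.mulVec_mulVec, Matrix.adjugate_mul, heckeMat_det, Matrix.smul_mulVec,
        Matrix.one_mulVec, Matrix.mulVec_smul] at h
    have h0 := congrFun h' 0
    have h1 := congrFun h' 1
    simp only [Pi.smul_apply, smul_eq_mul] at h0 h1
    exact Int.natCast_dvd_natCast.1 (Int.natAbs_dvd.2
      ⟨u * z 0 + t * z 1, by linear_combination u * h0 + t * h1 - (ℓ : ℤ) * hut⟩)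
  · set f : HeckeIdx N ℓ → A := fun i =>
      ℓ • φ (Additive.ofMul (transferElt hℓ γ i)) - ((e i).natAbs ^ 2) • φ (Additive.ofMul γ)
      with hf
    have h0 : ∑ i, f i = 0 := by
      refine sum_eq_zero_of_orbits (transferPerm hℓ γ) f fun i n hn => ?_
      have hconst : ∀ j, (e (transferPerm hℓ γ j)).natAbs = (e j).natAbs := by
        intro j
        have hs := congrArg (fun Z => Z *ᵥ v) (cosetStep_transfer hℓ γ j)
        simp only [← Matrix.mulVec_mulVec] at hs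
        rw [show gammaMat γ *ᵥ v = v from hfix, he, he, Matrix.mulVec_smul, Matrix.mulVec_mulVec,
          ← gammaMat_mul] at hs
        exact (natAbs_eq_of_smul_eq hv hs).symm
      have hconst' : ∀ m, (e ((transferPerm hℓ γ)^[m] i)).natAbs = (e i).natAbs := by
        intro m
        induction m with
        | zero => rfl
        | succ m ih => rw [Function.iterate_succ_apply', hconst, ih]
      obtain ⟨x, hx, hs⟩ := (cosetStep_transfer hℓ γ).iterate φ n i
      rw [hn] at hx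
      have hxpow : x ^ ℓ = g i * γ ^ (n * (e i).natAbs ^ 2) * (g i)⁻¹ :=
        Subtype.ext (pow_eq_conj_of_step hℓ (heckeMat_det N ℓ i) hk hfix (he i) hx)
      have hφ := congrArg (fun z => φ (Additive.ofMul z)) hxpow
      simp only [ofMul_pow, ofMul_mul, ofMul_inv, map_add, map_neg, map_nsmul] at hφ
      simp only [hf, Finset.sum_sub_distrib, ← Finset.smul_sum, ← hs, hconst',
        Finset.sum_const, Finset.card_range, smul_smul]
      rw [hφ, mul_comm n]
      abel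
    simp only [hf, Finset.sum_sub_distrib, ← Finset.smul_sum, sub_eq_zero] at h0
    rw [heckeHom_apply, h0, Finset.sum_smul]

/-- An eigen class of `T_ℓ` with small eigenvalue is parabolic. -/
theorem mem_parabolicHoms_of_eigen {ℓ : ℕ} (hℓ : ℓ.Prime) (hℓN : ¬ ℓ ∣ N)
    (hℓ1 : (ℓ : ZMod N) = 1) {a : ℤ} (ha : a.natAbs < ℓ + 1)
    {φ : Additive (Gamma0 N) →+ ℚ} (hT : heckeHom ℤ ℚ hℓ φ = a • φ) :
    φ ∈ parabolicHoms ℤ (Gamma0 N) ℚ := by
  intro γ hγ
  by_contra hne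
  have ht2 : (gammaMat (γ * γ)).trace = 2 := by
    have hd := gammaMat_det γ
    rw [gammaMat_mul, Matrix.trace_fin_two]
    rw [Matrix.trace_fin_two] at hγ
    rw [Matrix.det_fin_two] at hd
    simp only [Matrix.mul_apply, Fin.sum_univ_two]
    linear_combination hγ - 2 * hd
  obtain ⟨e, he, h⟩ := mul_heckeHom_parabolic hℓ hℓ1 φ ht2
  rw [hT, AddMonoidHom.smul_apply, ofMul_mul, map_add, nsmul_eq_mul, nsmul_eq_mul,
    zsmul_eq_mul] at h
  have hne2 : φ (Additive.ofMul γ) + φ (Additive.ofMul γ) ≠ 0 := by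
    intro h0; exact hne (by linarith)
  have hsum : ((ℓ : ℤ) * a : ℤ) = ((∑ i, e i ^ 2 : ℕ) : ℤ) := by
    have := mul_right_cancel₀ hne2 (show ((ℓ : ℚ) * (a : ℚ)) * _ = ((∑ i, e i ^ 2 : ℕ) : ℚ) * _ by
      rw [mul_assoc]; exact h)
    exact_mod_cast this
  have hcard : Fintype.card (HeckeIdx N ℓ) = ℓ + 1 := by
    rw [Fintype.card_congr (Equiv.subtypeUnivEquiv fun x _ => hℓN), Fintype.card_option,
      Fintype.card_fin]
  classical
  set B := (Finset.univ.filter fun i => e i = ℓ).card with hB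
  have hval : ∀ i, e i ^ 2 = 1 + (if e i = ℓ then ℓ ^ 2 - 1 else 0) := by
    intro i
    rcases hℓ.eq_one_or_self_of_dvd _ (he i) with h1 | h1
    · simp [h1, Ne.symm hℓ.ne_one]
    · simp only [h1, if_true]
      have : 1 ≤ ℓ ^ 2 := Nat.one_le_pow _ _ hℓ.pos
      omega
  have hS : ∑ i, e i ^ 2 = (ℓ + 1) + B * (ℓ ^ 2 - 1) := by
    rw [Finset.sum_congr rfl fun i _ => hval i, Finset.sum_add_distrib, Finset.sum_const,
      Finset.card_univ, hcard, ← Finset.sum_filter, Finset.sum_const, ← hB, smul_eq_mul,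
      smul_eq_mul, mul_one]
  rw [hS] at hsum
  have h1 : 1 ≤ ℓ ^ 2 := Nat.one_le_pow _ _ hℓ.pos
  push_cast [Nat.cast_sub h1] at hsum
  have hBdvd : (ℓ : ℤ) ∣ ((B : ℤ) - 1) := ⟨1 + (B : ℤ) * ℓ - a, by linear_combination hsum⟩
  have hle : (a : ℤ) < ℓ + 1 := by omega
  have h2 : (2 : ℤ) ≤ ℓ := by exact_mod_cast hℓ.two_le
  rcases Nat.eq_zero_or_pos B with hB0 | hB0
  · rw [hB0, Nat.cast_zero, zero_sub] at hBdvd
    have := Int.le_of_dvd one_pos (dvd_neg.1 hBdvd)
    omega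
  · have : (1 : ℤ) ≤ B := by exact_mod_cast hB0
    nlinarith [mul_nonneg (sub_nonneg.2 this) (show (0 : ℤ) ≤ (ℓ : ℤ) ^ 2 - 1 by nlinarith)]

end Fermat.Agent.Lifting
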