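import Fermat.Agent.Lifting.Cusp
import Fermat.Agent.BadPrime.Raise
import Fermat.Agent.Periods.EigenSpace
import Fermat.Agent.EC.Frob.Hasse
import Mathlib.NumberTheory.LSeries.PrimesInAP
import Mathlib.LinearAlgebra.Dual.Lemmas

/-!
# From an eigen class to modularity

A nonzero homomorphism `Γ₀(N) → K` (`K` a field of characteristic zero) which is an eigen class
with eigenvalues `a_ℓ(W)` at almost all primes comes from an eigenform of level `N`.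
-/

set_option autoImplicit false

open CongruenceSubgroup ModularCurve ModularCurve.Period ModularFormClass
open Fermat.Agent.Periods
open scoped MatrixGroups

namespace Fermat.Agent.Lifting

variable {W : WeierstrassCurve ℤ} {N : ℕ} [NeZero N]

/-- Eigen classes in characteristic zero with integral eigenvalues descend to `ℚ`. -/
theorem exists_rat_eigen {K : Type*} [Field K] [CharZero K] {φ : Additive (Gamma0 N) →+ K}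
    (hφ : φ ≠ 0) (c : ℕ → ℤ) (G : Set ℕ)
    (hT : ∀ (ℓ : ℕ) (hℓ : ℓ.Prime), ℓ ∈ G → heckeHom ℤ K hℓ φ = c ℓ • φ) :
    ∃ ψ : Additive (Gamma0 N) →+ ℚ, ψ ≠ 0 ∧
      ∀ (ℓ : ℕ) (hℓ : ℓ.Prime), ℓ ∈ G → heckeHom ℤ ℚ hℓ ψ = c ℓ • ψ := by
  obtain ⟨γ, hγ⟩ : ∃ γ, φ γ ≠ 0 := by
    by_contra h
    push Not at h
    exact hφ (AddMonoidHom.ext h)
  obtain ⟨lam, hlam⟩ : ∃ lam : Module.Dual ℚ K, lam (φ γ) ≠ 0 := by
    by_contra h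
    push Not at h
    exact hγ ((Module.forall_dual_apply_eq_zero_iff ℚ _).1 h)
  refine ⟨lam.toAddMonoidHom.comp φ, fun h => hlam (DFunLike.congr_fun h γ), fun ℓ hℓ hG => ?_⟩
  rw [heckeHom_comp, hT ℓ hℓ hG]
  refine AddMonoidHom.ext fun x => ?_
  show lam (c ℓ • φ x) = c ℓ • lam (φ x)
  exact map_zsmul lam _ _

/-- The eigen class is parabolic. -/
theorem mem_parabolicHoms_of_curve {ψ : Additive (Gamma0 N) →+ ℚ} (S : Finset ℕ)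
    (hT : ∀ (ℓ : ℕ) (hℓ : ℓ.Prime), W.IsGoodPrimeFor ℓ → ¬ ℓ ∣ N → ℓ ∉ S →
      heckeHom ℤ ℚ hℓ ψ = W.apOfModel ℓ • ψ) (hΔ : W.Δ ≠ 0) :
    ψ ∈ parabolicHoms ℤ (Gamma0 N) ℚ := by
  obtain ⟨ℓ, hlarge, hℓ, hℓ1⟩ := Nat.forall_exists_prime_gt_and_eq_mod (q := N) (a := 1) isUnit_one
    (N + W.Δ.natAbs + S.sup id + 4)
  have hℓN : ¬ ℓ ∣ N := fun h => by have := Nat.le_of_dvd (NeZero.pos N) h; omega
  have hgood : W.IsGoodPrimeFor ℓ := fun h => by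
    have := Nat.le_of_dvd (Int.natAbs_pos.2 hΔ) (Int.natCast_dvd.1 h)
    omega
  have hℓS : ℓ ∉ S := fun h => by
    have : ℓ ≤ S.sup id := Finset.le_sup (f := id) h
    omega
  refine mem_parabolicHoms_of_eigen hℓ hℓN hℓ1 ?_ (hT ℓ hℓ hgood hℓN hℓS)
  have h := EC.abs_apOfModel_le W hℓ hgood
  by_contra hc
  push Not at hc
  have h2 := Nat.pow_le_pow_left hc 2
  have h5 : ℓ * 5 ≤ ℓ * ℓ := Nat.mul_le_mul_left ℓ (by omega)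
  nlinarith

/-- A nonzero eigen class with the system of `W` makes `W` modular at that level, away from a
finite set of primes. -/
theorem exists_eigenform_of_eigenHom (hΔ : W.Δ ≠ 0) (S : Finset ℕ) {K : Type*} [Field K]
    [CharZero K] {φ : Additive (Gamma0 N) →+ K} (hφ : φ ≠ 0)
    (hT : ∀ (ℓ : ℕ) (hℓ : ℓ.Prime), W.IsGoodPrimeFor ℓ → ¬ ℓ ∣ N → ℓ ∉ S →
      heckeHom ℤ K hℓ φ = W.apOfModel ℓ • φ) :
    ∃ f : CuspForm (Gamma0 N) 2, f.IsNormalizedEigenform ∧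
      ∀ ℓ : ℕ, ℓ.Prime → W.IsGoodPrimeFor ℓ → ¬ ℓ ∣ N → ℓ ∉ S →
        qCoeff f ℓ = (W.apOfModel ℓ : ℂ) := by
  obtain ⟨ψ, hψ, hψT⟩ := exists_rat_eigen hφ W.apOfModel
    {ℓ | W.IsGoodPrimeFor ℓ ∧ ¬ ℓ ∣ N ∧ ℓ ∉ S} fun ℓ hℓ hG => hT ℓ hℓ hG.1 hG.2.1 hG.2.2
  have hpar := mem_parabolicHoms_of_curve S (fun ℓ hℓ hg hN hS => hψT ℓ hℓ ⟨hg, hN, hS⟩) hΔ
  set ι : ℚ →+ ℂ := (algebraMap ℚ ℂ).toAddMonoidHom with hι
  set χ : Additive (Gamma0 N) →+ ℂ := ι.comp ψ with hχ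
  have hχ0 : χ ≠ 0 := fun h => hψ (AddMonoidHom.ext fun x =>
    (algebraMap ℚ ℂ).injective (by simpa [hχ, hι] using DFunLike.congr_fun h x))
  have hχpar : χ ∈ parabolicHoms ℂ (Gamma0 N) ℂ := fun γ hγ => by
    show ι (ψ (Additive.ofMul γ)) = 0
    rw [hpar γ hγ, map_zero]
  obtain ⟨x, hx⟩ : χ ∈ LinearMap.range (periodHomPair N) := by
    rw [range_periodHomPair N]; exact hχpar
  have hxT : ∀ (ℓ : ℕ) (hℓ : ℓ.Prime) (hℓN : ¬ ℓ ∣ N), W.IsGoodPrimeFor ℓ → ℓ ∉ S →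
      CuspForm.heckeTLin 2 hℓ hℓN x.1 = (W.apOfModel ℓ : ℂ) • x.1 ∧
        CuspForm.heckeTLin 2 hℓ hℓN x.2 = (W.apOfModel ℓ : ℂ) • x.2 := by
    intro ℓ hℓ hℓN hg hS
    have h1 : heckeHom ℂ ℂ hℓ χ = (W.apOfModel ℓ : ℂ) • χ := by
      rw [show heckeHom ℂ ℂ hℓ χ = heckeHom ℤ ℂ hℓ χ from rfl, hχ, heckeHom_comp,
        hψT ℓ hℓ ⟨hg, hℓN, hS⟩]
      refine AddMonoidHom.ext fun z => ?_
      simp [hι]
    rw [← hx, heckeHom_periodHomPair_T hℓ hℓN x.1 x.2, ← map_smul,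
      (periodHomPair_injective N).eq_iff, Prod.ext_iff] at h1
    exact h1
  obtain ⟨y, hy0, hy⟩ : ∃ y : CuspForm (Gamma0 N) 2, y ≠ 0 ∧
      ∀ (ℓ : ℕ) (hℓ : ℓ.Prime) (hℓN : ¬ ℓ ∣ N), W.IsGoodPrimeFor ℓ → ℓ ∉ S →
        CuspForm.heckeTLin 2 hℓ hℓN y = (W.apOfModel ℓ : ℂ) • y := by
    by_cases h0 : x.1 = 0
    · refine ⟨x.2, fun h => hχ0 ?_, fun ℓ hℓ hℓN hg hS => (hxT ℓ hℓ hℓN hg hS).2⟩
      rw [← hx, show x = 0 from Prod.ext h0 h, map_zero]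
    · exact ⟨x.1, h0, fun ℓ hℓ hℓN hg hS => (hxT ℓ hℓ hℓN hg hS).1⟩
  have := BadPrime.finiteDimensional_cuspForm N
  let V : Submodule ℂ (CuspForm (Gamma0 N) 2) :=
    ⨅ (ℓ : ℕ) (hℓ : ℓ.Prime) (hℓN : ¬ ℓ ∣ N) (_ : W.IsGoodPrimeFor ℓ ∧ ℓ ∉ S),
      Module.End.eigenspace (CuspForm.heckeTLin 2 hℓ hℓN) (W.apOfModel ℓ : ℂ)
  have mem_V : ∀ {z}, z ∈ V ↔ ∀ (ℓ : ℕ) (hℓ : ℓ.Prime) (hℓN : ¬ ℓ ∣ N),
      W.IsGoodPrimeFor ℓ ∧ ℓ ∉ S →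
        CuspForm.heckeTLin 2 hℓ hℓN z = (W.apOfModel ℓ : ℂ) • z := by
    intro z; simp [V, Submodule.mem_iInf, Module.End.mem_eigenspace_iff]
  have hV : V ≠ ⊥ := fun hbot => hy0 (by
    have : y ∈ V := mem_V.mpr fun ℓ hℓ hℓN h => hy ℓ hℓ hℓN h.1 h.2
    rwa [hbot, Submodule.mem_bot] at this)
  obtain ⟨v, hvV, hv0, hv⟩ := Hecke.exists_common_eigenvector
    (CuspForm.heckeAlgebra N 2 ∅).val.toRingHom V hV (fun t z hz => mem_V.mpr fun ℓ hℓ hℓN h => by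
      have hcomm := congrArg Subtype.val
        (mul_comm (CuspForm.heckeAlgebra.T hℓ hℓN (Set.notMem_empty ℓ)) t)
      simp only [MulMemClass.coe_mul, CuspForm.heckeAlgebra.coe_T] at hcomm
      show CuspForm.heckeTLin 2 hℓ hℓN ((t : Module.End ℂ (CuspForm (Gamma0 N) 2)) z) = _
      rw [← Module.End.mul_apply, hcomm, Module.End.mul_apply, mem_V.mp hz ℓ hℓ hℓN h, map_smul]
      rfl)
  obtain ⟨χT, hχT⟩ := Hecke.exists_eigenchar _ hv0 hv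
  obtain ⟨f, hf, -, hT', -⟩ := Hecke.exists_normalizedEigenform_of_eigenvector χT hv0 hχT
  refine ⟨f, hf, fun ℓ hℓ hg hℓN hS => ?_⟩
  rw [hT' ℓ hℓ hℓN]
  refine smul_left_injective ℂ hv0 ?_
  exact (hχT _).symm.trans (mem_V.mp hvV ℓ hℓ hℓN ⟨hg, hS⟩)

/-- Modularity at a cube-free level from an eigen class. -/
theorem exists_modular_level_of_eigenHom (hΔ : W.Δ ≠ 0) {p : ℕ} (hp : p.Prime)
    (hpN : ¬ p ^ 2 ∣ N) (hN3 : ∀ q : ℕ, q.Prime → ¬ q ^ 3 ∣ N) (S : Finset ℕ)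
    (hS : ∀ ℓ ∈ S, ℓ.Prime) {K : Type*} [Field K] [CharZero K]
    {φ : Additive (Gamma0 N) →+ K} (hφ : φ ≠ 0)
    (hT : ∀ (ℓ : ℕ) (hℓ : ℓ.Prime), W.IsGoodPrimeFor ℓ → ¬ ℓ ∣ N → ℓ ∉ S →
      heckeHom ℤ K hℓ φ = W.apOfModel ℓ • φ) :
    ∃ R : ℕ, 0 < R ∧ ¬ p ^ 2 ∣ R ∧ (∀ q : ℕ, q.Prime → ¬ q ^ 3 ∣ R) ∧
      W.IsModularModelOfLevel R := by
  obtain ⟨f, hf, hfa⟩ := exists_eigenform_of_eigenHom hΔ S hφ hT
  set m := ∏ ℓ ∈ S, ℓ with hm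
  have hm0 : m ≠ 0 := Finset.prod_ne_zero_iff.2 fun ℓ hℓ => (hS ℓ hℓ).ne_zero
  have hmfac : ∀ q : ℕ, q.Prime → ¬ q ^ 2 ∣ m := by
    intro q hq hd
    obtain ⟨a, ha, hqa⟩ := (hq.prime.dvd_finsetProd_iff _).1 ((dvd_pow_self q two_ne_zero).trans hd)
    obtain rfl : q = a := (Nat.prime_dvd_prime_iff_eq hq (hS a ha)).1 hqa
    rw [hm, ← Finset.mul_prod_erase S _ ha, pow_two, Nat.mul_dvd_mul_iff_left hq.pos] at hd
    obtain ⟨b, hb, hqb⟩ := (hq.prime.dvd_finsetProd_iff _).1 hd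
    rw [Finset.mem_erase] at hb
    exact hb.1 ((Nat.prime_dvd_prime_iff_eq hq (hS b hb.2)).1 hqb).symm
  have lcm_free : ∀ {q k : ℕ}, q.Prime → ¬ q ^ k ∣ N → ¬ q ^ k ∣ m → ¬ q ^ k ∣ Nat.lcm N m := by
    intro q k hq h₁ h₂
    rw [hq.pow_dvd_iff_le_factorization (Nat.lcm_ne_zero (NeZero.ne N) hm0),
      Nat.factorization_lcm (NeZero.ne N) hm0]
    rw [hq.pow_dvd_iff_le_factorization (NeZero.ne N)] at h₁
    rw [hq.pow_dvd_iff_le_factorization hm0] at h₂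
    simp only [Finsupp.sup_apply]
    exact fun h => (le_sup_iff.1 h).elim h₁ h₂
  have hR0 := Nat.lcm_ne_zero (NeZero.ne N) hm0
  have : NeZero (Nat.lcm N m) := ⟨hR0⟩
  obtain ⟨g, hg, hgf⟩ := BadPrime.exists_eigenform_level_of_dvd (R := Nat.lcm N m)
    (Nat.dvd_lcm_left _ _) hf
  refine ⟨Nat.lcm N m, Nat.pos_of_ne_zero hR0, lcm_free hp hpN (hmfac p hp),
    fun q hq => lcm_free hq (hN3 q hq) fun h => hmfac q hq ((pow_dvd_pow q (by norm_num)).trans h),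
    g, hg, fun ℓ hℓ hgood hℓR => ?_⟩
  rw [hgf ℓ hℓ hℓR]
  exact hfa ℓ hℓ hgood (fun h => hℓR (h.trans (Nat.dvd_lcm_left _ _)))
    fun h => hℓR ((Finset.dvd_prod_of_mem _ h).trans (Nat.dvd_lcm_right _ _))

end Fermat.Agent.Lifting
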